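import Fermat.Agent.Carayol.CuspRing
import Fermat.Agent.Carayol.Inertial
import Fermat.Agent.Semistable.ValBase

/-!
# The coefficient ring at a cusp

The elements of a place `A` over `q` fixed by the inertia elements fixing a root of unity `ζ` form
a discrete valuation ring over the ring fixed by inertia, in which that ring is closed and units
have roots of order prime to `q`.
-/

set_option autoImplicit false

noncomputable section

namespace Fermat.Agent.Carayol.Omega

open Fermat.Agent.Arith Fermat.Agent.OrdinaryAtP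
open scoped Pointwise

variable (A : ValuationSubring QBar) (ζ : QBar)

/-- The elements of `A` fixed by the inertia elements fixing `ζ`. -/
def stabRing : Subring QBar where
  carrier := {a | a ∈ A ∧ ∀ τ ∈ A.inertiaSubgroupIn ℚ, τ ζ = ζ → τ a = a}
  one_mem' := ⟨one_mem _, fun _ _ _ => map_one _⟩
  mul_mem' ha hb := ⟨mul_mem ha.1 hb.1,
    fun τ hτ hz => by rw [map_mul, ha.2 τ hτ hz, hb.2 τ hτ hz]⟩
  zero_mem' := ⟨zero_mem _, fun _ _ _ => map_zero _⟩
  add_mem' ha hb := ⟨add_mem ha.1 hb.1,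
    fun τ hτ hz => by rw [map_add, ha.2 τ hτ hz, hb.2 τ hτ hz]⟩
  neg_mem' ha := ⟨neg_mem ha.1, fun τ hτ hz => by rw [map_neg, ha.2 τ hτ hz]⟩

variable {A ζ}

theorem inertiaRing_le_stab (w : inertiaRing A) : ((w : inertiaField A) : QBar) ∈ stabRing A ζ :=
  ⟨(mem_inertiaRing A).mp w.2, fun τ hτ _ => (mem_inertiaField A).mp w.1.2 τ hτ⟩

theorem map_mem_iff {τ : GQ} (hτ : τ ∈ A.inertiaSubgroupIn ℚ) {x : QBar} : τ x ∈ A ↔ x ∈ A := by
  refine ⟨fun h => ?_, map_mem_of_mem_decomposition (mem_inertia_iff_forall_mem.mp hτ).1⟩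
  have := map_mem_of_mem_decomposition (mem_inertia_iff_forall_mem.mp (inv_mem hτ)).1 h
  rwa [← AlgEquiv.mul_apply, inv_mul_cancel] at this

theorem valuation_le_iff_div_mem {x y : QBar} (hy : y ≠ 0) :
    A.valuation x ≤ A.valuation y ↔ x / y ∈ A := by
  rw [← A.valuation_le_one_iff, map_div₀, div_le_one₀ (zero_lt_iff.mpr (A.valuation.ne_zero_iff.mpr hy))]

/-- Inertia preserves the valuation. -/
theorem valuation_inertia {τ : GQ} (hτ : τ ∈ A.inertiaSubgroupIn ℚ) (x : QBar) :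
    A.valuation (τ x) = A.valuation x :=
  valuation_map_eq_of_mem_iff τ (fun _ => map_mem_iff hτ) x

variable {q : ℕ} {N : ℕ} [NeZero N]

theorem exists_val_pow (hA : A.LiesOverPrime q) (hq : q.Prime) (hζ : IsPrimitiveRoot ζ N)
    {x : QBar} (hx : x ≠ 0) (hfix : ∀ τ ∈ A.inertiaSubgroupIn ℚ, τ ζ = ζ → τ x = x) :
    ∃ k : ℤ, A.valuation x ^ N.factorial = A.valuation (q : QBar) ^ k := by
  classical
  set I := A.inertiaSubgroupIn ℚ
  let g : Fin N → QBar := fun i => if h : ∃ τ ∈ I, τ ζ = ζ ^ (i : ℕ) then h.choose x else x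
  set S : Finset QBar := Finset.univ.image g
  have hmemS : ∀ τ ∈ I, τ x ∈ S := fun τ hτ => by
    obtain ⟨i, hi, hiz⟩ := hζ.eq_pow_of_pow_eq_one (ξ := τ ζ)
      (by rw [← map_pow, hζ.pow_eq_one, map_one])
    have hex : ∃ σ ∈ I, σ ζ = ζ ^ ((⟨i, hi⟩ : Fin N) : ℕ) := ⟨τ, hτ, hiz.symm⟩
    refine Finset.mem_image.mpr ⟨⟨i, hi⟩, Finset.mem_univ _, ?_⟩
    show (if h : _ then _ else _) = _
    rw [dif_pos hex]
    obtain ⟨hσ, hσz⟩ := hex.choose_spec
    have h := hfix (hex.choose⁻¹ * τ) (mul_mem (inv_mem hσ) hτ) (by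
      refine hex.choose.injective ?_
      rw [← AlgEquiv.mul_apply, mul_inv_cancel_left]
      exact hiz.symm.trans hσz.symm)
    rw [AlgEquiv.mul_apply] at h
    have := congrArg hex.choose h
    rwa [← AlgEquiv.mul_apply, mul_inv_cancel, AlgEquiv.one_apply, eq_comm] at this
  have horb : ∀ y ∈ S, ∃ τ ∈ I, τ x = y := fun y hy => by
    obtain ⟨i, -, rfl⟩ := Finset.mem_image.mp hy
    simp only [g]
    split_ifs with h
    · exact ⟨_, h.choose_spec.1, rfl⟩
    · exact ⟨1, one_mem _, rfl⟩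
  have hperm : ∀ τ ∈ I, S.image τ = S := fun τ hτ => by
    refine Finset.eq_of_subset_of_card_le (fun y hy => ?_)
      (Finset.card_image_of_injective _ τ.injective).ge
    obtain ⟨z, hz, rfl⟩ := Finset.mem_image.mp hy
    obtain ⟨σ, hσ, rfl⟩ := horb z hz
    exact hmemS (τ * σ) (mul_mem hτ hσ)
  have hP : ∀ τ ∈ I, τ (∏ y ∈ S, y) = ∏ y ∈ S, y := fun τ hτ => by
    rw [map_prod, ← Finset.prod_image (f := fun y => y) (g := τ) fun a _ b _ h => τ.injective h,
      hperm τ hτ]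
  have hP0 : (∏ y ∈ S, y) ≠ 0 := Finset.prod_ne_zero_iff.mpr fun y hy => by
    obtain ⟨τ, -, rfl⟩ := horb y hy
    exact (map_ne_zero τ).mpr hx
  obtain ⟨k, u, hk⟩ := exists_zpow_mul_unit hA hq hP0 hP
  have hu : A.valuation ((u : fixRing A) : QBar) = 1 := by
    refine le_antisymm ((A.valuation_le_one_iff _).mpr (u : fixRing A).2.1) ?_
    have h1 : ((u : fixRing A) : QBar) * ((↑(u⁻¹) : fixRing A) : QBar) = 1 := by
      rw [← Subring.coe_mul, Units.mul_inv, Subring.coe_one]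
    have := congrArg A.valuation h1
    rw [map_mul, map_one] at this
    rw [← this]
    exact mul_le_of_le_one_right' ((A.valuation_le_one_iff _).mpr (↑(u⁻¹) : fixRing A).2.1)
  have hcard : A.valuation x ^ S.card = A.valuation (q : QBar) ^ k := by
    have e := congrArg A.valuation hk
    rw [map_mul, map_zpow₀, hu, mul_one, map_prod] at e
    rw [← e, Finset.prod_congr rfl (fun y hy => ?_), Finset.prod_const]
    obtain ⟨τ, hτ, rfl⟩ := horb y hy
    exact valuation_inertia hτ x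
  obtain ⟨l, hl⟩ := Nat.dvd_factorial (Finset.card_pos.mpr ⟨_, hmemS 1 (one_mem _)⟩)
    (Finset.card_image_le.trans_eq (Finset.card_fin N) : S.card ≤ N)
  exact ⟨k * l, by rw [hl, pow_mul, hcard, zpow_mul, zpow_natCast]⟩

variable (hA : A.LiesOverPrime q) (hq : q.Prime) (hζ : IsPrimitiveRoot ζ N)

include hA in
theorem valuation_natCast_lt : A.valuation (q : QBar) < 1 := (A.mem_nonunits_iff).mp hA

include hA hq hζ

theorem exists_val_pow_nat {w : stabRing A ζ} (hw : w ≠ 0) :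
    ∃ k : ℕ, A.valuation (w : QBar) ^ N.factorial = A.valuation (q : QBar) ^ k := by
  obtain ⟨k, hk⟩ := exists_val_pow hA hq hζ (fun h => hw (Subtype.ext h)) w.2.2
  have h1 : A.valuation (q : QBar) ^ k ≤ 1 :=
    hk ▸ pow_le_one' ((A.valuation_le_one_iff _).mpr w.2.1) _
  have hq0 : 0 < A.valuation (q : QBar) :=
    zero_lt_iff.mpr (A.valuation.ne_zero_iff.mpr (Nat.cast_ne_zero.mpr hq.ne_zero))
  rw [← zpow_zero (A.valuation (q : QBar)),
    zpow_le_zpow_iff_right_of_lt_one₀ hq0 (valuation_natCast_lt hA)] at h1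
  exact ⟨k.toNat, by rw [hk, ← zpow_natCast, Int.toNat_of_nonneg h1]⟩

omit hA hq hζ in
theorem stab_dvd {a b : stabRing A ζ} (ha : a ≠ 0)
    (h : A.valuation (b : QBar) ≤ A.valuation (a : QBar)) : a ∣ b := by
  have ha0 : (a : QBar) ≠ 0 := fun h => ha (Subtype.ext h)
  refine ⟨⟨(b : QBar) / a, (valuation_le_iff_div_mem ha0).mp h, fun τ hτ hz => ?_⟩,
    Subtype.ext (mul_div_cancel₀ _ ha0).symm⟩
  rw [map_div₀, b.2.2 τ hτ hz, a.2.2 τ hτ hz]

omit hA hq hζ in
theorem stab_isUnit_iff {a : stabRing A ζ} : IsUnit a ↔ A.valuation (a : QBar) = 1 := by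
  constructor
  · intro h
    obtain ⟨b, hb⟩ := h.exists_right_inv
    refine le_antisymm ((A.valuation_le_one_iff _).mpr a.2.1) ?_
    have := congrArg (fun z : stabRing A ζ => A.valuation (z : QBar)) hb
    simp only [Subring.coe_mul, map_mul, Subring.coe_one, map_one] at this
    rw [← this]
    exact mul_le_of_le_one_right' ((A.valuation_le_one_iff _).mpr b.2.1)
  · intro h
    have ha : a ≠ 0 := fun h0 => by simp [h0] at h
    exact isUnit_of_dvd_one (stab_dvd ha (by rw [Subring.coe_one, map_one, h]))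

omit hq hζ in
theorem natCast_not_isUnit : ¬ IsUnit (q : stabRing A ζ) := fun h => by
  rw [stab_isUnit_iff, SubringClass.coe_natCast] at h
  exact (valuation_natCast_lt hA).ne h

omit hA hζ in
theorem natCast_stab_ne_zero : (q : stabRing A ζ) ≠ 0 := fun h => by
  have := congrArg (Subtype.val : stabRing A ζ → QBar) h
  rw [SubringClass.coe_natCast] at this
  exact hq.ne_zero (by exact_mod_cast this)

/-- The coefficient ring has a uniformiser, of smallest valuation among the non-units. -/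
theorem exists_uniformiser : ∃ π : stabRing A ζ, π ≠ 0 ∧ ¬ IsUnit π ∧
    ∀ w : stabRing A ζ, ¬ IsUnit w → π ∣ w := by
  classical
  have hN : N.factorial ≠ 0 := Nat.factorial_ne_zero N
  have hex : ∃ k : ℕ, ∃ w : stabRing A ζ, w ≠ 0 ∧ ¬ IsUnit w ∧
      A.valuation (w : QBar) ^ N.factorial = A.valuation (q : QBar) ^ k := by
    obtain ⟨k, hk⟩ := exists_val_pow_nat hA hq hζ (natCast_stab_ne_zero hq (A := A) (ζ := ζ))
    exact ⟨k, _, natCast_stab_ne_zero hq, natCast_not_isUnit hA, hk⟩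
  obtain ⟨π, hπ0, hπ, hk⟩ := Nat.find_spec hex
  refine ⟨π, hπ0, hπ, fun w hw => ?_⟩
  rcases eq_or_ne w 0 with rfl | hw0
  · exact dvd_zero _
  obtain ⟨k, hk'⟩ := exists_val_pow_nat hA hq hζ hw0
  refine stab_dvd hπ0 ((pow_le_pow_iff_left₀ zero_le zero_le hN).mp ?_)
  rw [hk, hk']
  exact pow_le_pow_right_of_le_one' (valuation_natCast_lt hA).le
    (Nat.find_min' hex ⟨w, hw0, hw, hk'⟩)

omit [NeZero N] hζ in
theorem finiteMultiplicity {π z : stabRing A ζ} (hπ : ¬ IsUnit π) (hz : z ≠ 0) :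
    FiniteMultiplicity π z := by
  obtain ⟨n, hn⟩ := Semistable.exists_pow_valuation_lt hA hq
    (π := (π : QBar)) ((A.mem_nonunits_iff).mpr (lt_of_le_of_ne
      ((A.valuation_le_one_iff _).mpr π.2.1) (mt stab_isUnit_iff.mpr hπ)))
    (s := (z : QBar)) (mt (fun h => Subtype.ext h) hz)
  refine ⟨n, fun ⟨c, hc⟩ => hn.not_ge ?_⟩
  rw [hc, pow_succ, mul_assoc, Subring.coe_mul, map_mul, SubmonoidClass.coe_pow]
  exact mul_le_of_le_one_right' ((A.valuation_le_one_iff _).mpr (π * c).2.1)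

theorem hasUnitMulPow : IsDiscreteValuationRing.HasUnitMulPowIrreducibleFactorization
    (stabRing A ζ) := by
  obtain ⟨π, hπ0, hπ, hdvd⟩ := exists_uniformiser hA hq hζ
  have hirr : Irreducible π := ⟨hπ, fun a b hab => by
    by_contra! hn
    obtain ⟨a', rfl⟩ := hdvd a hn.1
    refine hn.2 (IsUnit.of_mul_eq_one a' ?_)
    refine mul_left_cancel₀ hπ0 ?_
    rw [mul_one]
    conv_rhs => rw [hab]
    ring⟩
  refine ⟨π, hirr, fun {x} hx => ?_⟩
  obtain ⟨c, hc, hcn⟩ := (finiteMultiplicity hA hq hπ hx).exists_eq_pow_mul_and_not_dvd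
  exact ⟨_, (of_not_not fun h => hcn (hdvd c h) : IsUnit c).unit, hc.symm⟩

omit [NeZero N] hζ in
theorem exists_root_stab {m : ℕ} (hm : IsUnit (m : stabRing A ζ)) {a : stabRing A ζ}
    (ha : IsUnit a) : ∃ b : stabRing A ζ, b ^ m = a := by
  have hm0 : m ≠ 0 := fun h => by simp [h] at hm
  have hqm : ¬ q ∣ m := fun ⟨c, hc⟩ => natCast_not_isUnit hA
    (isUnit_of_mul_isUnit_left (by rwa [hc, Nat.cast_mul] at hm))
  obtain ⟨b, hb⟩ := IsAlgClosed.exists_pow_nat_eq (a : QBar) (Nat.pos_of_ne_zero hm0)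
  have hb1 : A.valuation b = 1 := by
    refine (pow_eq_one_iff.1 ?_).resolve_right hm0
    rw [← map_pow, hb]
    exact stab_isUnit_iff.mp ha
  have hb0 : b ≠ 0 := fun h => by simp [h] at hb1
  refine ⟨⟨b, (A.valuation_le_one_iff _).mp hb1.le, fun τ hτ hz => ?_⟩, Subtype.ext hb⟩
  have h1 : (τ b / b) ^ m = 1 := by
    rw [div_pow, ← map_pow, hb, a.2.2 τ hτ hz,
      div_self (fun h => hb0 (pow_eq_zero_iff hm0 |>.mp (hb.trans h)))]
  have h2 : τ b / b - 1 ∈ A.nonunits := by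
    rw [A.mem_nonunits_iff, div_sub_one hb0, map_div₀, hb1, div_one]
    exact A.mem_nonunits_iff.mp
      ((mem_inertia_iff_forall_mem.mp hτ).2 b ((A.valuation_le_one_iff _).mp hb1.le))
  have := root_congr hA hq h1 (one_pow m) hqm h2
  rwa [div_eq_one_iff_eq hb0] at this

theorem eq_of_closed {π a : stabRing A ζ} (hπ : ¬ IsUnit π)
    (h : ∀ i : ℕ, ∃ w : inertiaRing A, π ^ i ∣ a - ⟨_, inertiaRing_le_stab w⟩)
    {τ : GQ} (hτ : τ ∈ A.inertiaSubgroupIn ℚ) : τ (a : QBar) = a := by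
  have hnorm : ∀ y : stabRing A ζ, τ (y : QBar) ∈ stabRing A ζ := fun y => by
    refine ⟨(map_mem_iff hτ).mpr y.2.1, fun σ hσ hz => ?_⟩
    obtain ⟨i, -, hiz⟩ := hζ.eq_pow_of_pow_eq_one (ξ := τ ζ)
      (by rw [← map_pow, hζ.pow_eq_one, map_one])
    have := y.2.2 (τ⁻¹ * σ * τ) (mul_mem (mul_mem (inv_mem hτ) hσ) hτ) (by
      rw [AlgEquiv.mul_apply, AlgEquiv.mul_apply, ← hiz, map_pow, hz, hiz, ← AlgEquiv.mul_apply,
        inv_mul_cancel]
      rfl)
    have := congrArg τ this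
    rwa [← AlgEquiv.mul_apply, ← mul_assoc, ← mul_assoc, mul_inv_cancel, one_mul,
      AlgEquiv.mul_apply] at this
  by_contra hne
  set z : stabRing A ζ := ⟨_, hnorm a⟩ - a
  have hz : z ≠ 0 := fun h0 => hne (sub_eq_zero.mp (congrArg Subtype.val h0 :))
  obtain ⟨m, hm⟩ := finiteMultiplicity hA hq hπ hz
  refine hm ?_
  obtain ⟨w, c, hc⟩ := h (m + 1)
  rcases eq_or_ne π 0 with rfl | hπ0
  · rw [zero_pow (by omega)] at hc ⊢
    rw [zero_mul, sub_eq_zero] at hc
    refine zero_dvd_iff.mpr (Subtype.ext ?_)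
    show τ (a : QBar) - a = 0
    rw [hc, sub_eq_zero]
    exact (mem_inertiaField A).mp w.1.2 τ hτ
  refine stab_dvd (pow_ne_zero _ hπ0) ?_
  have hc' := congrArg (Subtype.val : stabRing A ζ → QBar) hc
  simp only [AddSubgroupClass.coe_sub, Subring.coe_mul] at hc'
  show A.valuation (τ (a : QBar) - a) ≤ _
  rw [show τ (a : QBar) - a
      = τ (((π ^ (m + 1) : stabRing A ζ) : QBar) * (c : QBar))
        - ((π ^ (m + 1) : stabRing A ζ) : QBar) * (c : QBar) by
    rw [← hc', map_sub, (mem_inertiaField A).mp w.1.2 τ hτ]; ring]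
  refine (A.valuation.map_sub _ _).trans (max_le ?_ ?_)
  · rw [valuation_inertia hτ, map_mul]
    exact mul_le_of_le_one_right' ((A.valuation_le_one_iff _).mpr c.2.1)
  · rw [map_mul]
    exact mul_le_of_le_one_right' ((A.valuation_le_one_iff _).mpr c.2.1)

/-- The coefficient ring of the series at a cusp. -/
def cuspBase : SerBase (inertialBase hA hq) :=
  let h := hasUnitMulPow hA hq hζ
  have := IsDiscreteValuationRing.ofHasUnitMulPowIrreducibleFactorization h
  { O := stabRing A ζ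
    root := fun {m} hm {a} ha => exists_root_stab hA hq hm ha
    ψ :=
      { toFun := fun w => ⟨_, inertiaRing_le_stab w⟩
        map_one' := rfl
        map_mul' := fun _ _ => rfl
        map_zero' := rfl
        map_add' := fun _ _ => rfl }
    ψ_injective := fun w w' e => Subtype.ext (Subtype.ext (congrArg Subtype.val e :))
    π := h.choose
    irr := h.choose_spec.1
    dvd_q := by
      obtain ⟨i, hi⟩ := h.choose_spec.2 (natCast_stab_ne_zero hq (A := A) (ζ := ζ))
      rcases Nat.eq_zero_or_pos i with rfl | hpos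
      · exact absurd (hi.isUnit (by rw [pow_zero]; exact isUnit_one)) (natCast_not_isUnit hA)
      · exact (dvd_pow_self _ hpos.ne').trans hi.dvd
    q_ne := natCast_stab_ne_zero hq
    closed := fun a ha => by
      refine ⟨⟨⟨(a : QBar), (mem_inertiaField A).mpr fun τ hτ =>
        eq_of_closed hA hq hζ h.choose_spec.1.not_isUnit ha hτ⟩, (mem_inertiaRing A).mpr a.2.1⟩,
        rfl⟩ }

end Fermat.Agent.Carayol.Omega
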