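import Fermat.Agent.ModFun.Expansion

/-!
# Periodic functions given by power series, and inverses of nowhere vanishing ones
-/

set_option autoImplicit false

noncomputable section

open UpperHalfPlane hiding I
open Function Filter Complex
open scoped Manifold Real Topology

local notation "𝕢" => Periodic.qParam

namespace Fermat.Agent.Carayol.Omega

open Fermat.Agent.ModFun

variable {h : ℕ} [NeZero h]

/-- A series convergent at every `qFun h τ` is a power series on the unit disc. -/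
theorem hasFPowerSeriesOnBall_of_hasSum_qFun {g : ℍ → ℂ} {c : ℕ → ℂ}
    (hc : ∀ τ : ℍ, HasSum (fun m : ℕ => c m • qFun h τ ^ m) (g τ)) :
    HasFPowerSeriesOnBall (fun q => ∑' m, c m • q ^ m) (.ofScalars ℂ c) 0 1 := by
  have hh : (0 : ℝ) < h := cast_pos_of_neZero h
  have hsum : ∀ q : ℂ, ‖q‖ < 1 → Summable fun m => c m • q ^ m := fun q hq => by
    rcases eq_or_ne q 0 with rfl | h0
    · exact summable_of_ne_finset_zero (s := {0}) fun m hm => by
        simp [zero_pow (by simpa using hm : m ≠ 0)]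
    · have h1 := Periodic.im_invQParam_pos_of_norm_lt_one hh hq h0
      have h2 := (hc ⟨Periodic.invQParam (h : ℝ) q, h1⟩).summable
      rwa [qFun, Periodic.qParam_right_inv hh.ne' h0] at h2
  refine ⟨?_, zero_lt_one, ?_⟩
  · refine le_of_forall_lt_imp_le_of_dense fun r hr => ?_
    lift r to NNReal using hr.ne_top
    refine FormalMultilinearSeries.le_radius_of_summable _ ?_
    have := (hsum (r : ℝ) (by simpa using hr)).norm
    simpa [FormalMultilinearSeries.ofScalars_norm, smul_eq_mul, norm_mul, norm_pow] using this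
  · intro y hy
    rw [Metric.mem_eball, edist_zero_right, ← ofReal_norm, ENNReal.ofReal_lt_one] at hy
    simpa [FormalMultilinearSeries.ofScalars_apply_eq, smul_eq_mul, mul_comm]
      using (hsum y hy).hasSum

omit [NeZero h] in
theorem eq_tsum_qFun {g : ℍ → ℂ} {c : ℕ → ℂ}
    (hc : ∀ τ : ℍ, HasSum (fun m : ℕ => c m • qFun h τ ^ m) (g τ)) :
    g = fun τ => ∑' m, c m • qFun h τ ^ m :=
  funext fun τ => (hc τ).tsum_eq.symm

theorem mdifferentiable_of_hasSum_qFun {g : ℍ → ℂ} {c : ℕ → ℂ}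
    (hc : ∀ τ : ℍ, HasSum (fun m : ℕ => c m • qFun h τ ^ m) (g τ)) : MDiff g := by
  have hh : (0 : ℝ) < h := cast_pos_of_neZero h
  rw [UpperHalfPlane.mdifferentiable_iff]
  have hd : DifferentiableOn ℂ (fun q : ℂ => ∑' m, c m • q ^ m) (Metric.eball 0 1) :=
    (hasFPowerSeriesOnBall_of_hasSum_qFun hc).analyticOnNhd.differentiableOn
  refine DifferentiableOn.congr (f := fun z => ∑' m, c m • 𝕢 (h : ℝ) z ^ m) ?_ fun z hz => ?_
  · refine hd.comp (Periodic.differentiable_qParam (h := (h : ℝ))).differentiableOn fun z hz => ?_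
    have := Periodic.norm_qParam_lt_one hh (hz : 0 < z.im)
    rw [Metric.mem_eball, edist_zero_right, ← ofReal_norm, ENNReal.ofReal_lt_one]
    exact this
  · simp only [Function.comp_apply, ofComplex_apply_of_im_pos hz]
    exact (hc ⟨z, hz⟩).tsum_eq.symm

theorem mem_BddAlg_of_hasSum_qFun {g : ℍ → ℂ} {c : ℕ → ℂ}
    (hc : ∀ τ : ℍ, HasSum (fun m : ℕ => c m • qFun h τ ^ m) (g τ)) : g ∈ BddAlg h :=
  mem_BddAlg_of_hasSum (mdifferentiable_of_hasSum_qFun hc) hc

theorem tendsto_of_hasSum_qFun {g : ℍ → ℂ} {c : ℕ → ℂ}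
    (hc : ∀ τ : ℍ, HasSum (fun m : ℕ => c m • qFun h τ ^ m) (g τ)) :
    Tendsto g atImInfty (𝓝 (c 0)) := by
  have hh : (0 : ℝ) < h := cast_pos_of_neZero h
  have h0 : (∑' m, c m • (0 : ℂ) ^ m) = c 0 := by
    rw [tsum_eq_single 0 fun m hm => by simp [zero_pow hm]]
    simp
  have := (hasFPowerSeriesOnBall_of_hasSum_qFun hc).hasFPowerSeriesAt.continuousAt.tendsto.comp
    (qParam_tendsto_atImInfty hh)
  rw [h0] at this
  rw [eq_tsum_qFun hc]
  exact this

/-- A nowhere vanishing element of `CuspAlg h` is invertible there. -/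
theorem inv_mem_CuspAlg {f : CuspAlg h} (hf : ∀ τ, (f : ℍ → ℂ) τ ≠ 0) :
    (fun τ => ((f : ℍ → ℂ) τ)⁻¹) ∈ CuspAlg h := by
  classical
  obtain ⟨n, c, hc, -⟩ := exists_hasSum f
  have hex : ∃ m, c m ≠ 0 := by
    by_contra hall
    push Not at hall
    have hz : HasSum (fun m : ℕ => c m • qFun h UpperHalfPlane.I ^ m) (0 : ℂ) := by
      simp [hall, hasSum_zero]
    have h0 := (hc UpperHalfPlane.I).unique hz
    exact mul_ne_zero (pow_ne_zero n (qFun_ne_zero h _)) (hf _) h0
  set m := Nat.find hex with hm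
  have hlt : ∀ k, k < m → c k = 0 := fun k hk => by simpa using Nat.find_min hex hk
  set H : ℍ → ℂ := fun τ => qFun h τ ^ n * (f : ℍ → ℂ) τ / qFun h τ ^ m with hH
  have hH' : ∀ τ : ℍ, HasSum (fun k : ℕ => c (k + m) • qFun h τ ^ k) (H τ) := fun τ => by
    have h1 := (hasSum_nat_add_iff' m).mpr (hc τ)
    rw [Finset.sum_eq_zero fun k hk => by rw [hlt k (Finset.mem_range.mp hk), zero_smul],
      sub_zero] at h1
    refine (h1.div_const (qFun h τ ^ m)).congr_fun fun k => ?_
    have := pow_ne_zero m (qFun_ne_zero h τ)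
    simp only [smul_eq_mul, pow_add]
    field_simp
  have hne : ∀ τ, H τ ≠ 0 := fun τ =>
    div_ne_zero (mul_ne_zero (pow_ne_zero n (qFun_ne_zero h τ)) (hf τ))
      (pow_ne_zero m (qFun_ne_zero h τ))
  have hHb := mem_BddAlg_of_hasSum_qFun hH'
  have hinv : (fun τ => (H τ)⁻¹) ∈ BddAlg h := by
    refine ⟨?_, fun τ => by simp only [hHb.2.1 τ], ?_⟩
    · rw [UpperHalfPlane.mdifferentiable_iff]
      exact (UpperHalfPlane.mdifferentiable_iff.mp hHb.1).inv fun z _ => hne _
    · have h0 : c (0 + m) ≠ 0 := by rw [zero_add]; exact Nat.find_spec hex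
      exact ((tendsto_of_hasSum_qFun hH').inv₀ h0).isBigO_one ℝ
  have e : (fun τ => ((f : ℍ → ℂ) τ)⁻¹)
      = ((qFunC h ^ n * qInvC h ^ m : CuspAlg h) : ℍ → ℂ) * fun τ => (H τ)⁻¹ := by
    funext τ
    have h1 := qFun_ne_zero h τ
    have h2 := hf τ
    simp only [Pi.mul_apply, Subalgebra.coe_mul, SubmonoidClass.coe_pow, Pi.pow_apply, qFunC,
      qInvC, hH, inv_pow]
    field_simp
  rw [e]
  exact mul_mem (qFunC h ^ n * qInvC h ^ m : CuspAlg h).2 (BddAlg_le_CuspAlg h hinv)

end Fermat.Agent.Carayol.Omega
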