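import Fermat.Agent.Carayol.Omega.Series

/-!
# Tate normal parameters and coordinates as elements of the ring of functions
-/

set_option autoImplicit false
set_option linter.unusedSectionVars false

noncomputable section

open UpperHalfPlane hiding I
open Complex Function
open scoped MatrixGroups

namespace Fermat.Agent.Carayol.Omega

open Fermat.Agent.ModFun Fermat.Agent.Mazur.Small
open WeierstrassCurve.Affine (Point)

/-- Points that admit a Tate normal form. -/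
def GoodPt {n : ℕ} (P : ZMod n × ZMod n) : Prop := 2 • P ≠ 0 ∧ 3 • P ≠ 0

theorem GoodPt.ne_zero {n : ℕ} {P : ZMod n × ZMod n} (h : GoodPt P) : P ≠ 0 := fun e =>
  h.1 (by rw [e, smul_zero])

theorem vmul_nsmul {n : ℕ} (m : ℕ) (P : ZMod n × ZMod n) (γ : SL(2, ℤ)) :
    vmul (m • P) γ = m • vmul P γ := by
  simp only [vmul, Prod.smul_fst, Prod.smul_snd, Prod.smul_mk, smul_mul_assoc, smul_add]

theorem vmul_mul {n : ℕ} (v : ZMod n × ZMod n) (γ δ : SL(2, ℤ)) :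
    vmul v (γ * δ) = vmul (vmul v γ) δ := by
  simp only [vmul, Prod.mk.injEq, Matrix.SpecialLinearGroup.coe_mul, Matrix.mul_apply,
    Fin.sum_univ_two]
  push_cast
  constructor <;> ring

theorem vmul_one {n : ℕ} (v : ZMod n × ZMod n) : vmul v 1 = v := by
  simp [vmul]

theorem vmul_injective {n : ℕ} (γ : SL(2, ℤ)) :
    Function.Injective fun v : ZMod n × ZMod n => vmul v γ :=
  Function.LeftInverse.injective (g := fun v => vmul v γ⁻¹) fun v => by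
    simp only [← vmul_mul, mul_inv_cancel, vmul_one]

theorem GoodPt.vmul {n : ℕ} {P : ZMod n × ZMod n} (h : GoodPt P) (γ : SL(2, ℤ)) :
    GoodPt (Omega.vmul P γ) := by
  have h0 : Omega.vmul (0 : ZMod n × ZMod n) γ = 0 := by simp [Omega.vmul]
  exact ⟨fun e => h.1 (vmul_injective γ (by simp only [vmul_nsmul, e, h0])),
    fun e => h.2 (vmul_injective γ (by simp only [vmul_nsmul, e, h0]))⟩

/-- Weight homogeneity of the Tate invariants of a short model. -/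
theorem tate_scale {F : Type*} [Field F] [CharZero F] {μ a b a' b' x y x' y' : F} (hμ : μ ≠ 0)
    (ha : a' = μ ^ 4 * a) (hx : x' = μ ^ 2 * x) (hy : y' = μ ^ 3 * y)
    (h3 : tateA3 (⟨0, 0, 0, a, b⟩ : WeierstrassCurve F).toAffine x y ≠ 0)
    (h2 : tateA2 (⟨0, 0, 0, a, b⟩ : WeierstrassCurve F).toAffine x y ≠ 0) :
    tateB (⟨0, 0, 0, a', b'⟩ : WeierstrassCurve F).toAffine x' y'
        = tateB (⟨0, 0, 0, a, b⟩ : WeierstrassCurve F).toAffine x y ∧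
    tateC (⟨0, 0, 0, a', b'⟩ : WeierstrassCurve F).toAffine x' y'
        = tateC (⟨0, 0, 0, a, b⟩ : WeierstrassCurve F).toAffine x y ∧
    ∀ u v : F, tateX (⟨0, 0, 0, a', b'⟩ : WeierstrassCurve F) x' y' (μ ^ 2 * u)
        = tateX (⟨0, 0, 0, a, b⟩ : WeierstrassCurve F) x y u ∧
      tateY (⟨0, 0, 0, a', b'⟩ : WeierstrassCurve F) x' y' (μ ^ 2 * u) (μ ^ 3 * v)
        = tateY (⟨0, 0, 0, a, b⟩ : WeierstrassCurve F) x y u v := by
  subst ha hx hy
  have e3 : tateA3 (⟨0, 0, 0, μ ^ 4 * a, b'⟩ : WeierstrassCurve F).toAffine (μ ^ 2 * x) (μ ^ 3 * y)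
      = μ ^ 3 * tateA3 (⟨0, 0, 0, a, b⟩ : WeierstrassCurve F).toAffine x y := by
    simp only [tateA3]; ring
  have el : tateLam (⟨0, 0, 0, μ ^ 4 * a, b'⟩ : WeierstrassCurve F).toAffine (μ ^ 2 * x) (μ ^ 3 * y)
      = μ * tateLam (⟨0, 0, 0, a, b⟩ : WeierstrassCurve F).toAffine x y := by
    rw [tateLam, tateLam, e3]
    field_simp
    ring
  have e1 : tateA1 (⟨0, 0, 0, μ ^ 4 * a, b'⟩ : WeierstrassCurve F).toAffine (μ ^ 2 * x) (μ ^ 3 * y)
      = μ * tateA1 (⟨0, 0, 0, a, b⟩ : WeierstrassCurve F).toAffine x y := by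
    simp only [tateA1, el]; ring
  have e2 : tateA2 (⟨0, 0, 0, μ ^ 4 * a, b'⟩ : WeierstrassCurve F).toAffine (μ ^ 2 * x) (μ ^ 3 * y)
      = μ ^ 2 * tateA2 (⟨0, 0, 0, a, b⟩ : WeierstrassCurve F).toAffine x y := by
    simp only [tateA2, el]; ring
  refine ⟨?_, ?_, fun u v => ⟨?_, ?_⟩⟩
  · simp only [tateB, e2, e3]; field_simp
  · simp only [tateC, e1, e2, e3]; field_simp
  · simp only [tateX, e2, e3]; field_simp
  · simp only [tateY, e2, e3, el]; field_simp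

namespace Setup

variable {n : ℕ} [NeZero n] {K : Type*} [Field K] [CharZero K] (E : Setup n K)

/-- `A₃` of the Tate reduction at `P`. -/
def rA3 (P : ZMod n × ZMod n) : E.R := 2 * E.rY P

/-- The slope at `P`. -/
def rLam (P : ZMod n × ZMod n) : E.R := (3 * E.rX P ^ 2 + E.rA) * Ring.inverse (E.rA3 P)

/-- `A₁` of the Tate reduction at `P`. -/
def rA1 (P : ZMod n × ZMod n) : E.R := 2 * E.rLam P

/-- `A₂` of the Tate reduction at `P`. -/
def rA2 (P : ZMod n × ZMod n) : E.R := 3 * E.rX P - E.rLam P ^ 2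

/-- The parameter `b` at `P`. -/
def rTB (P : ZMod n × ZMod n) : E.R := -E.rA2 P ^ 3 * Ring.inverse (E.rA3 P) ^ 2

/-- The parameter `c` at `P`. -/
def rTC (P : ZMod n × ZMod n) : E.R := 1 - E.rA1 P * E.rA2 P * Ring.inverse (E.rA3 P)

/-- The Tate abscissa of `v` at `P`. -/
def rTX (P v : ZMod n × ZMod n) : E.R :=
  (E.rX v - E.rX P) * (E.rA2 P * Ring.inverse (E.rA3 P)) ^ 2

/-- The Tate ordinate of `v` at `P`. -/
def rTY (P v : ZMod n × ZMod n) : E.R :=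
  (E.rY v - E.rY P - E.rLam P * (E.rX v - E.rX P)) * (E.rA2 P * Ring.inverse (E.rA3 P)) ^ 3

theorem ev_rA3_rA2_ne [DecidableEq ℂ] {P : ZMod n × ZMod n} (hP : GoodPt P) (τ : ℍ) :
    tateA3 (curveAt τ).toAffine (fX n P τ) (fY n P τ) ≠ 0 ∧
      tateA2 (curveAt τ).toAffine (fX n P τ) (fY n P τ) ≠ 0 := by
  have : (curveAt τ).IsElliptic := ⟨(curveAt_Δ_ne τ).isUnit⟩
  obtain ⟨h, e⟩ := torsHom_apply τ hP.ne_zero
  refine tate_ne_zero_of_order _ h (fun h0 => hP.1 ?_) (fun h0 => hP.2 ?_) <;>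
  · refine torsHom_injective τ ?_
    rw [map_nsmul, e, map_zero, h0]

theorem isUnit_rA3 {P : ZMod n × ZMod n} (hP : GoodPt P) : IsUnit (E.rA3 P) := by
  classical
  refine E.isUnit_of_ne_zero fun τ => ?_
  have := (ev_rA3_rA2_ne hP τ).1
  rw [rA3, map_mul, map_ofNat]
  simpa [tateA3, ev_apply, rY, curveAt] using this

theorem map_gens {F : Type*} [Field F] (φ : E.R →+* F) {P : ZMod n × ZMod n} (hP : GoodPt P) :
    φ (E.rA3 P) = tateA3 (E.curve.map φ).toAffine (φ (E.rX P)) (φ (E.rY P)) ∧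
    φ (E.rA2 P) = tateA2 (E.curve.map φ).toAffine (φ (E.rX P)) (φ (E.rY P)) ∧
    φ (E.rTB P) = tateB (E.curve.map φ).toAffine (φ (E.rX P)) (φ (E.rY P)) ∧
    φ (E.rTC P) = tateC (E.curve.map φ).toAffine (φ (E.rX P)) (φ (E.rY P)) ∧
    ∀ v, φ (E.rTX P v) = tateX (E.curve.map φ) (φ (E.rX P)) (φ (E.rY P)) (φ (E.rX v)) ∧
      φ (E.rTY P v)
        = tateY (E.curve.map φ) (φ (E.rX P)) (φ (E.rY P)) (φ (E.rX v)) (φ (E.rY v)) := by
  have hi : φ (Ring.inverse (E.rA3 P)) = (φ (E.rA3 P))⁻¹ :=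
    eq_inv_of_mul_eq_one_left (by
      rw [← map_mul, Ring.inverse_mul_cancel _ (E.isUnit_rA3 hP), map_one])
  have e3 : φ (E.rA3 P) = tateA3 (E.curve.map φ).toAffine (φ (E.rX P)) (φ (E.rY P)) := by
    simp [rA3, tateA3, curve, map_ofNat]
  have el : φ (E.rLam P) = tateLam (E.curve.map φ).toAffine (φ (E.rX P)) (φ (E.rY P)) := by
    rw [rLam, map_mul, hi, tateLam, e3, ← div_eq_mul_inv]
    simp [curve, map_ofNat]
  have e2 : φ (E.rA2 P) = tateA2 (E.curve.map φ).toAffine (φ (E.rX P)) (φ (E.rY P)) := by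
    rw [rA2, tateA2, map_sub, map_pow, el]
    simp [curve, map_ofNat]
  have e1 : φ (E.rA1 P) = tateA1 (E.curve.map φ).toAffine (φ (E.rX P)) (φ (E.rY P)) := by
    rw [rA1, tateA1, map_mul, el]
    simp [curve, map_ofNat]
  refine ⟨e3, e2, ?_, ?_, fun v => ⟨?_, ?_⟩⟩
  · rw [rTB, tateB, map_mul, map_neg, map_pow, map_pow, hi, e2, e3, inv_pow, div_eq_mul_inv]
  · rw [rTC, tateC, map_sub, map_one, map_mul, map_mul, hi, e1, e2, e3, div_eq_mul_inv]
  · simp only [rTX, tateX, map_mul, map_sub, map_pow, hi, e2, e3, div_pow]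
    field_simp
  · simp only [rTY, tateY, map_mul, map_sub, map_pow, hi, e2, e3, el, div_pow]
    field_simp

theorem isUnit_rA2 {P : ZMod n × ZMod n} (hP : GoodPt P) : IsUnit (E.rA2 P) := by
  classical
  refine E.isUnit_of_ne_zero fun τ => ?_
  rw [(E.map_gens (E.ev τ) hP).2.1, E.map_curve_ev]
  exact (ev_rA3_rA2_ne hP τ).2

theorem ev_gens_smul {P : ZMod n × ZMod n} (hP : GoodPt P) (γ : SL(2, ℤ)) (τ : ℍ) :
    E.ev (γ • τ) (E.rTB P) = E.ev τ (E.rTB (vmul P γ)) ∧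
    E.ev (γ • τ) (E.rTC P) = E.ev τ (E.rTC (vmul P γ)) ∧
    ∀ v, E.ev (γ • τ) (E.rTX P v) = E.ev τ (E.rTX (vmul P γ) (vmul v γ)) ∧
      E.ev (γ • τ) (E.rTY P v) = E.ev τ (E.rTY (vmul P γ) (vmul v γ)) := by
  classical
  have hμ : ((γ 1 0 : ℂ) * τ + γ 1 1) ≠ 0 := by
    rw [← Wp.denom_eq]; exact UpperHalfPlane.denom_ne_zero _ τ
  obtain ⟨h3, h2⟩ := ev_rA3_rA2_ne (hP.vmul γ) τ
  obtain ⟨hB, hC, hXY⟩ := tate_scale (b' := fB (γ • τ)) hμ (fA_smul γ τ) (fX_smul γ P τ)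
    (fY_smul γ P τ) h3 h2
  obtain ⟨-, -, gB, gC, gXY⟩ := E.map_gens (E.ev (γ • τ)) hP
  obtain ⟨-, -, gB', gC', gXY'⟩ := E.map_gens (E.ev τ) (hP.vmul γ)
  rw [gB, gC, gB', gC', E.map_curve_ev, E.map_curve_ev]
  refine ⟨hB, hC, fun v => ?_⟩
  rw [(gXY v).1, (gXY v).2, (gXY' _).1, (gXY' _).2, E.map_curve_ev, E.map_curve_ev]
  obtain ⟨hX, hY⟩ := hXY (fX n (vmul v γ) τ) (fY n (vmul v γ) τ)
  rw [← fX_smul γ v τ] at hX hY
  rw [← fY_smul γ v τ] at hY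
  exact ⟨hX, hY⟩

end Setup

end Fermat.Agent.Carayol.Omega
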