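import Fermat.Agent.Carayol.Omega.Field
import Fermat.Agent.Carayol.Omega.SumInv
import Fermat.Agent.ModFun.Affine

/-!
# The invariant of a lattice of torsion labels

For a finite set `S` of labels the invariant of the lattice `ℤτ + ℤ + S` is an element of the field
of level `n`; automorphisms move it by moving `S`. For `S = {w | u w₁ = 0, v w₂ = 0}` its expansion
is that of `j (vτ/u)`.
-/

set_option autoImplicit false
set_option linter.unusedSectionVars false

noncomputable section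

open UpperHalfPlane hiding I
open Complex Function
open scoped MatrixGroups

namespace Fermat.Agent.Carayol.Omega

open Fermat.Agent.ModFun Fermat.Agent.Mazur.Small
open ModularCurve (coeffMap qExpand jqModC)

/-- The labels killed coordinatewise by `(u, v)`. -/
def boxLabels (n : ℕ) [NeZero n] (u v : ℕ) : Finset (ZMod n × ZMod n) :=
  Finset.univ.filter fun w => u • w.1 = 0 ∧ v • w.2 = 0

theorem mem_boxLabels {n : ℕ} [NeZero n] {u v : ℕ} {w : ZMod n × ZMod n} :
    w ∈ boxLabels n u v ↔ u • w.1 = 0 ∧ v • w.2 = 0 := by simp [boxLabels]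

/-- The image of a set of labels. -/
def moveSet {n : ℕ} [NeZero n] (M : Matrix (Fin 2) (Fin 2) (ZMod n))
    (S : Finset (ZMod n × ZMod n)) : Finset (ZMod n × ZMod n) :=
  S.image fun w => vm w M

theorem vm_injective {n : ℕ} {M : Matrix (Fin 2) (Fin 2) (ZMod n)} (hM : IsUnit M) :
    Function.Injective fun w : ZMod n × ZMod n => vm w M := by
  obtain ⟨u, rfl⟩ := hM
  refine Function.LeftInverse.injective
    (g := fun w => vm w (↑u⁻¹ : Matrix (Fin 2) (Fin 2) (ZMod n))) fun w => ?_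
  simp only [← vm_mul, Units.mul_inv, vm_one]

theorem sum_moveSet_erase {n : ℕ} [NeZero n] {A : Type*} [AddCommMonoid A]
    {M : Matrix (Fin 2) (Fin 2) (ZMod n)} (hM : IsUnit M) (S : Finset (ZMod n × ZMod n))
    (f : ZMod n × ZMod n → A) :
    ∑ w ∈ (moveSet M S).erase 0, f w = ∑ w ∈ S.erase 0, f (vm w M) := by
  have h0 : (fun w => vm w M) (0 : ZMod n × ZMod n) = 0 := by simp [Omega.vm]
  rw [moveSet, ← h0, ← Finset.image_erase (vm_injective hM), h0,
    Finset.sum_image (fun x _ y _ h => vm_injective hM h)]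

namespace Setup

variable {n : ℕ} [NeZero n] {K : Type*} [Field K] [CharZero K] (E : Setup n K)

/-- The coefficient `a₄` of the lattice generated by `S`. -/
def sA (S : Finset (ZMod n × ZMod n)) : E.R :=
  E.rA - ∑ w ∈ S.erase 0, (15 * E.rX w ^ 2 + 5 * E.rA)

/-- The coefficient `a₆` of the lattice generated by `S`. -/
def sB (S : Finset (ZMod n × ZMod n)) : E.R :=
  E.rB - ∑ w ∈ S.erase 0, (35 * E.rX w ^ 3 + 21 * E.rA * E.rX w + 14 * E.rB)

/-- The series of the invariant of the lattice generated by `S`. -/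
def jSer (S : Finset (ZMod n × ZMod n)) : LaurentSeries K :=
  6912 * E.toSer (E.sA S) ^ 3 / E.toSer (4 * E.sA S ^ 3 + 27 * E.sB S ^ 2)

variable (k : Type*) [Field k] [Algebra k K]

/-- The normalised abscissa of `w` at `P`. -/
def nX {P : ZMod n × ZMod n} (hP : GoodPt P) (w : ZMod n × ZMod n) : E.field k :=
  E.fgen k (g := .tx P w) hP - E.fgen k (g := .tx P 0) hP

/-- The Tate curve at `P`. -/
def fCurve {P : ZMod n × ZMod n} (hP : GoodPt P) : WeierstrassCurve (E.field k) :=
  tateCurve (E.fgen k (g := .tb P) hP) (E.fgen k (g := .tc P) hP)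

/-- The normalised coefficient `a₄` at `P`. -/
def nA {P : ZMod n × ZMod n} (hP : GoodPt P) (S : Finset (ZMod n × ZMod n)) : E.field k :=
  -(E.fCurve k hP).c₄ / 48
    - ∑ w ∈ S.erase 0, (15 * E.nX k hP w ^ 2 + 5 * (-(E.fCurve k hP).c₄ / 48))

/-- The normalised coefficient `a₆` at `P`. -/
def nB {P : ZMod n × ZMod n} (hP : GoodPt P) (S : Finset (ZMod n × ZMod n)) : E.field k :=
  -(E.fCurve k hP).c₆ / 864
    - ∑ w ∈ S.erase 0, (35 * E.nX k hP w ^ 3
        + 21 * (-(E.fCurve k hP).c₄ / 48) * E.nX k hP w + 14 * (-(E.fCurve k hP).c₆ / 864))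

/-- The invariant of the lattice generated by `S`, in the field. -/
def fJ {P : ZMod n × ZMod n} (hP : GoodPt P) (S : Finset (ZMod n × ZMod n)) : E.field k :=
  6912 * E.nA k hP S ^ 3 / (4 * E.nA k hP S ^ 3 + 27 * E.nB k hP S ^ 2)

theorem coe_fJ {P : ZMod n × ZMod n} (hP : GoodPt P) (S : Finset (ZMod n × ZMod n)) :
    (E.fJ k hP S : LaurentSeries K) = E.jSer S := by
  classical
  have : CharZero (LaurentSeries K) :=
    charZero_of_injective_ringHom (f := (HahnSeries.C : K →+* LaurentSeries K)) (RingHom.injective _)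
  set val := (E.field k).toSubfield.subtype with hval
  obtain ⟨e3, e2, gB, gC, gXY⟩ := E.map_gens E.toSer hP
  set W := E.curve.map E.toSer with hW
  set x := E.toSer (E.rX P) with hx
  set y := E.toSer (E.rY P) with hy
  have h3 : tateA3 W.toAffine x y ≠ 0 := e3 ▸ ((E.isUnit_rA3 hP).map E.toSer).ne_zero
  have h2 : tateA2 W.toAffine x y ≠ 0 := e2 ▸ ((E.isUnit_rA2 hP).map E.toSer).ne_zero
  have heq : W.toAffine.Equation x y :=
    WeierstrassCurve.Affine.Equation.map E.toSer (E.family.equation hP.ne_zero)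
  have hT : tateChange W h3 h2 • W = (E.fCurve k hP).map val := by
    rw [tateChange_smul W h3 h2 heq, fCurve, ← gB, ← gC]
    apply WeierstrassCurve.ext <;> simp [tateCurve, hval] <;> rfl
  set U := tateA3 W.toAffine x y / tateA2 W.toAffine x y with hU
  have hU0 : U ≠ 0 := div_ne_zero h3 h2
  have hu : ((tateChange W h3 h2).u : LaurentSeries K) = U := rfl
  have hA : val (-(E.fCurve k hP).c₄ / 48) = E.toSer E.rA / U ^ 4 := by
    rw [map_div₀, map_neg, map_ofNat, ← WeierstrassCurve.map_c₄, ← hT,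
      WeierstrassCurve.variableChange_c₄, Units.val_inv_eq_inv_val, hu]
    simp only [hW, WeierstrassCurve.map_c₄]
    rw [show E.curve.c₄ = -48 * E.rA by
      simp [curve, WeierstrassCurve.c₄, WeierstrassCurve.b₂, WeierstrassCurve.b₄]; ring]
    rw [map_mul, map_neg, map_ofNat]
    field_simp
  have hB : val (-(E.fCurve k hP).c₆ / 864) = E.toSer E.rB / U ^ 6 := by
    rw [map_div₀, map_neg, map_ofNat, ← WeierstrassCurve.map_c₆, ← hT,
      WeierstrassCurve.variableChange_c₆, Units.val_inv_eq_inv_val, hu]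
    simp only [hW, WeierstrassCurve.map_c₆]
    rw [show E.curve.c₆ = -864 * E.rB by
      simp [curve, WeierstrassCurve.c₆, WeierstrassCurve.b₂, WeierstrassCurve.b₄,
        WeierstrassCurve.b₆]; ring]
    rw [map_mul, map_neg, map_ofNat]
    field_simp
  have hX : ∀ w, val (E.nX k hP w) = E.toSer (E.rX w) / U ^ 2 := fun w => by
    rw [nX, map_sub]
    show E.toSer (E.rTX P w) - E.toSer (E.rTX P 0) = _
    rw [(gXY w).1, (gXY 0).1, tateX, tateX, E.toSer_rX_zero, ← hU]
    ring
  have hnA : val (E.nA k hP S) = E.toSer (E.sA S) / U ^ 4 := by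
    simp only [nA, sA, map_sub, map_sum, map_add, map_mul, map_pow, map_ofNat, hA, hX]
    rw [sub_div, Finset.sum_div]
    congr 1
    exact Finset.sum_congr rfl fun w _ => by field_simp
  have hnB : val (E.nB k hP S) = E.toSer (E.sB S) / U ^ 6 := by
    simp only [nB, sB, map_sub, map_sum, map_add, map_mul, map_pow, map_ofNat, hA, hB, hX]
    rw [sub_div, Finset.sum_div]
    congr 1
    exact Finset.sum_congr rfl fun w _ => by field_simp
  show val (E.fJ k hP S) = _
  simp only [fJ, jSer, map_div₀, map_mul, map_add, map_pow, map_ofNat, hnA, hnB]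
  field_simp

theorem Moves.apply_fJ {e : E.field k ≃ₐ[k] E.field k} {M : Matrix (Fin 2) (Fin 2) (ZMod n)}
    (he : E.Moves k e M) {P : ZMod n × ZMod n} (hP : GoodPt P) (hQ : GoodPt (vm P M))
    (S : Finset (ZMod n × ZMod n)) :
    e (E.fJ k hP S) = E.fJ k hQ (moveSet M S) := by
  obtain ⟨hM, -, hg⟩ := he
  have hX : ∀ w, e (E.nX k hP w) = E.nX k hQ (vm w M) := fun w => by
    rw [nX, nX, map_sub, hg (.tx P w) hP, hg (.tx P 0) hP]
    refine congrArg₂ (· - ·) rfl (Subtype.ext (congrArg E.genS ?_))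
    simp [Gen.move, Omega.vm]
  have hC : (E.fCurve k hP).map (e : E.field k →+* E.field k) = E.fCurve k hQ := by
    have e1 : e (E.fgen k (g := .tb P) hP) = E.fgen k (g := .tb (vm P M)) hQ := hg (.tb P) hP
    have e2 : e (E.fgen k (g := .tc P) hP) = E.fgen k (g := .tc (vm P M)) hQ := hg (.tc P) hP
    apply WeierstrassCurve.ext <;> simp [fCurve, tateCurve, e1, e2]
  have h4 : e (E.fCurve k hP).c₄ = (E.fCurve k hQ).c₄ := by
    rw [← hC, WeierstrassCurve.map_c₄]; rfl
  have h6 : e (E.fCurve k hP).c₆ = (E.fCurve k hQ).c₆ := by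
    rw [← hC, WeierstrassCurve.map_c₆]; rfl
  simp only [fJ, nA, nB, map_div₀, map_mul, map_add, map_sub, map_pow, map_sum, map_neg,
    map_ofNat, hX, h4, h6, sum_moveSet_erase hM]

theorem fJ_congr {P Q : ZMod n × ZMod n} (hP : GoodPt P) (hQ : GoodPt Q)
    (S : Finset (ZMod n × ZMod n)) : E.fJ k hP S = E.fJ k hQ S :=
  Subtype.ext (by rw [coe_fJ, coe_fJ])

theorem Moves.apply_fJ' {e : E.field k ≃ₐ[k] E.field k} {M : Matrix (Fin 2) (Fin 2) (ZMod n)}
    (he : E.Moves k e M) {P : ZMod n × ZMod n} (hP : GoodPt P)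
    (S : Finset (ZMod n × ZMod n)) : e (E.fJ k hP S) = E.fJ k hP (moveSet M S) := by
  obtain ⟨hM, -, -⟩ := id he
  rw [Moves.apply_fJ E k he hP (hP.vm hM) S]
  exact E.fJ_congr k _ _ _

end Setup

/-! ### The boxes -/

variable {n : ℕ} [NeZero n]

/-- The lattice of `boxLabels n u v` is similar to that of `vτ/u`. -/
def boxSum (τ : ℍ) (u v : ℕ) [NeZero u] [NeZero v] (hu : u ∣ n) (hv : v ∣ n) :
    LatticeSum (boxLabels n u v) τ (affine v 0 u τ) where
  μ := v
  μ_ne := Nat.cast_ne_zero.mpr (NeZero.ne v)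
  mem_iff z := by
    have hn : (n : ℂ) ≠ 0 := Nat.cast_ne_zero.mpr (NeZero.ne n)
    have huC : (u : ℂ) ≠ 0 := Nat.cast_ne_zero.mpr (NeZero.ne u)
    have hvC : (v : ℂ) ≠ 0 := Nat.cast_ne_zero.mpr (NeZero.ne v)
    obtain ⟨s, hs⟩ := hu
    obtain ⟨t, ht⟩ := hv
    have hsC : (n : ℂ) = u * s := by exact_mod_cast congrArg (Nat.cast : ℕ → ℂ) hs
    have htC : (n : ℂ) = v * t := by exact_mod_cast congrArg (Nat.cast : ℕ → ℂ) ht
    have hs0 : (s : ℂ) ≠ 0 := fun h => hn (by rw [hsC, h, mul_zero])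
    have ht0 : (t : ℂ) ≠ 0 := fun h => hn (by rw [htC, h, mul_zero])
    rw [Wp.mem_pairTau]
    simp only [coe_affine, Int.cast_zero, add_zero]
    constructor
    · rintro ⟨a, b, h⟩
      refine ⟨(((a * s : ℤ) : ZMod n), ((b * t : ℤ) : ZMod n)), mem_boxLabels.mpr ⟨?_, ?_⟩, ?_⟩
      · rw [nsmul_eq_mul, ← Int.cast_natCast, ← Int.cast_mul,
          ZMod.intCast_zmod_eq_zero_iff_dvd]
        exact ⟨a, by rw [hs]; push_cast; ring⟩
      · rw [nsmul_eq_mul, ← Int.cast_natCast, ← Int.cast_mul,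
          ZMod.intCast_zmod_eq_zero_iff_dvd]
        exact ⟨b, by rw [ht]; push_cast; ring⟩
      · have := sub_mem_of_cast (n := n) τ (a := a * s) (b := b * t)
          (a' := (((a * s : ℤ) : ZMod n)).val) (b' := (((b * t : ℤ) : ZMod n)).val)
          (by simp) (by simp)
        convert this using 1
        simp only [torsArg]
        push_cast
        have hz : z = (a : ℂ) * τ / u + b / v := by
          field_simp at h ⊢
          linear_combination -h
        have e1 : (a : ℂ) * τ / u = (a * s) * τ / n := by rw [hsC]; field_simp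
        have e2 : (b : ℂ) / v = (b * t) / n := by rw [htC]; field_simp
        rw [hz, e1, e2]
        ring
    · rintro ⟨w, hw, hl⟩
      obtain ⟨h1, h2⟩ := mem_boxLabels.mp hw
      obtain ⟨m, l, hml⟩ := Wp.mem_pairTau.mp hl
      rw [← ZMod.natCast_zmod_val w.1, nsmul_eq_mul, ← Nat.cast_mul,
        ZMod.natCast_eq_zero_iff] at h1
      rw [← ZMod.natCast_zmod_val w.2, nsmul_eq_mul, ← Nat.cast_mul,
        ZMod.natCast_eq_zero_iff] at h2
      obtain ⟨i, hi⟩ : s ∣ w.1.val := Nat.dvd_of_mul_dvd_mul_left (NeZero.pos u) (hs ▸ h1)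
      obtain ⟨j, hj⟩ : t ∣ w.2.val := Nat.dvd_of_mul_dvd_mul_left (NeZero.pos v) (ht ▸ h2)
      refine ⟨(i : ℤ) + u * m, (j : ℤ) + v * l, ?_⟩
      have hz : z = (m : ℂ) * τ + l + torsArg n w τ := by rw [hml]; ring
      have e : torsArg n w τ = (i : ℂ) * τ / u + j / v := by
        simp only [torsArg, hi, hj]
        push_cast
        rw [add_div]
        congr 1
        · rw [hsC]; field_simp
        · rw [htC]; field_simp
      rw [hz, e]
      push_cast
      field_simp
      ring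

theorem jH_relation (τ : ℍ) :
    jH τ * (4 * fA τ ^ 3 + 27 * fB τ ^ 2) = 6912 * fA τ ^ 3 := by
  have hD := ModularForm.discriminant_eq_E₄_cube_sub_E₆_sq τ
  have hj := jH_mul_discriminant τ
  simp only [fA, fB]
  rw [hD] at hj
  linear_combination (-1 / 16 : ℂ) * hj

namespace Setup

attribute [local irreducible] Setup.toSer laurentExp

variable {K : Type*} [Field K] [CharZero K] (E : Setup n K)

theorem exists_jUV (u v : ℕ) [NeZero u] [NeZero v] (hu : u ∣ n) :
    ∃ h : (fun τ => jH (affine v 0 u τ)) ∈ E.R,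
      ∀ [NeZero (n / u * v)], E.toSer ⟨_, h⟩ = qExpand K (n / u * v) (jqModC K) := by
  obtain ⟨s, rfl⟩ := hu
  have : NeZero s := ⟨right_ne_zero_of_mul (NeZero.ne (u * s))⟩
  have : NeZero (s * v) := ⟨mul_ne_zero (NeZero.ne s) (NeZero.ne v)⟩
  have hmem : (compAffine v 0 u (jC 1) : ℍ → ℂ) ∈ CuspAlg u := (compAffine v 0 u (jC 1)).2
  have he := laurentExp_mul s (compAffine v 0 u (jC 1))
  rw [laurentExp_compAffine, affineRoot_zero, twist_one, laurentExp_jC,
    ModularCurve.qExpand_qExpand] at he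
  have key : ∀ m, m = s * u → ∀ [NeZero m],
      ∃ h : (fun τ => jH (affine v 0 u τ)) ∈ CuspAlg m,
        laurentExp m ⟨_, h⟩ = qExpand ℂ (s * v) (jqModC ℂ) := by
    rintro _ rfl _
    have hle := CuspAlg_le_mul (h := u) s (NeZero.ne s)
    refine ⟨hle hmem, ?_⟩
    have e0 : (⟨fun τ => jH (affine v 0 u τ), hle hmem⟩ : CuspAlg (s * u))
        = Subalgebra.inclusion hle (compAffine v 0 u (jC 1)) := Subtype.ext rfl
    rw [e0]
    exact he
  obtain ⟨h, e⟩ := key (u * s) (mul_comm u s)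
  have e' : laurentExp (u * s) ⟨_, h⟩ = coeffMap E.ι (qExpand K (s * v) (jqModC K)) := by
    rw [e, ModularCurve.coeffMap_qExpand, ModularCurve.coeffMap_jqModC]
  refine ⟨E.mem_R.mpr ⟨h, _, e'.symm⟩, ?_⟩
  intro _
  rw [E.toSer_eq e']
  exact ModularCurve.qExpand_congr (by rw [Nat.mul_div_cancel_left s (NeZero.pos u)]) _

/-- The invariant of a box is `j (vτ/u)`. -/
theorem jSer_boxLabels (u v : ℕ) [NeZero u] [NeZero v] (hu : u ∣ n) (hv : v ∣ n)
    [NeZero (n / u * v)] :
    E.jSer (boxLabels n u v) = qExpand K (n / u * v) (jqModC K) := by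
  obtain ⟨h, he⟩ := E.exists_jUV u v hu
  set g : E.R := ⟨_, h⟩ with hg
  set S := boxLabels n u v
  have hev : ∀ τ, E.ev τ (E.sA S) = (v : ℂ) ^ 4 * fA (affine v 0 u τ) ∧
      E.ev τ (E.sB S) = (v : ℂ) ^ 6 * fB (affine v 0 u τ) := fun τ => by
    obtain ⟨i4, i6⟩ := (boxSum τ u v hu hv).invariants
    refine ⟨Eq.trans ?_ i4.symm, Eq.trans ?_ i6.symm⟩ <;>
    simp only [sA, sB, map_sub, map_sum, map_add, map_mul, map_pow, map_ofNat] <;> rfl
  have hid : g * (4 * E.sA S ^ 3 + 27 * E.sB S ^ 2) = 6912 * E.sA S ^ 3 := by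
    refine sub_eq_zero.mp (E.separates fun τ => ?_)
    obtain ⟨eA, eB⟩ := hev τ
    simp only [map_sub, map_mul, map_add, map_pow, map_ofNat, eA, eB]
    show jH (affine v 0 u τ) * _ - _ = 0
    linear_combination (v : ℂ) ^ 12 * jH_relation (affine v 0 u τ)
  have hne : E.toSer (4 * E.sA S ^ 3 + 27 * E.sB S ^ 2) ≠ 0 := by
    intro h0
    rw [← map_zero E.toSer] at h0
    have h1 := congrArg (E.ev UpperHalfPlane.I) (E.toSer_injective h0)
    obtain ⟨eA, eB⟩ := hev UpperHalfPlane.I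
    simp only [map_mul, map_add, map_pow, map_ofNat, map_zero, eA, eB] at h1
    refine curveAt_Δ_ne (affine v 0 u UpperHalfPlane.I) ?_
    have hvC : (v : ℂ) ≠ 0 := Nat.cast_ne_zero.mpr (NeZero.ne v)
    simp only [curveAt, WeierstrassCurve.Δ, WeierstrassCurve.b₂, WeierstrassCurve.b₄,
      WeierstrassCurve.b₆, WeierstrassCurve.b₈]
    refine mul_left_cancel₀ (pow_ne_zero 12 hvC) ?_
    linear_combination (-16 : ℂ) * h1
  rw [jSer, div_eq_iff hne, ← he, ← map_mul]
  rw [hid, map_mul, map_pow, map_ofNat]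

end Setup

end Fermat.Agent.Carayol.Omega
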